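import Fermat.Agent.Jac.Rigid.Descent
import Mathlib.AlgebraicGeometry.Sites.BigZariski

/-!
The functor of rigidified Picard classes is a Zariski sheaf.
-/

set_option autoImplicit false
set_option linter.unusedVariables false

noncomputable section

open CategoryTheory CategoryTheory.Limits AlgebraicGeometry TopologicalSpace Opposite NeronModelInfra
open AlgebraicGeometry.RelPicard

namespace Fermat.Agent.Jac

universe u

section General

variable {R : Type u} [CommRing R] {C : Scheme.{u}} (c : C ⟶ Spec (CommRingCat.of R))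
  (ε : SchemeHomOver (𝟙 (Spec (CommRingCat.of R))) c)

theorem rigidPicMap_congr {T T' : Scheme.{u}} {t : T ⟶ Spec (CommRingCat.of R)}
    {t' : T' ⟶ Spec (CommRingCat.of R)} {g g' : SchemeHomOver t' t} (h : g.1 = g'.1) :
    rigidPicMap c ε g = rigidPicMap c ε g' := by rw [Subtype.ext h]

theorem rigidPicMap_id {T : Scheme.{u}} {t : T ⟶ Spec (CommRingCat.of R)}
    (g : SchemeHomOver t t) (h : g.1 = 𝟙 T) (ξ : rigidPic c ε t) : rigidPicMap c ε g ξ = ξ := by
  refine Subtype.ext ?_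
  rw [coe_rigidPicMap, show g = ⟨𝟙 T, Category.id_comp t⟩ from Subtype.ext h, baseChangeSnd_id,
    Pic.map_id]

theorem rigidPicMap_rigidPicMap {T T' T'' : Scheme.{u}} {t : T ⟶ Spec (CommRingCat.of R)}
    {t' : T' ⟶ Spec (CommRingCat.of R)} {t'' : T'' ⟶ Spec (CommRingCat.of R)}
    (g : SchemeHomOver t' t) (g' : SchemeHomOver t'' t') (ξ : rigidPic c ε t) :
    rigidPicMap c ε g' (rigidPicMap c ε g ξ) = rigidPicMap c ε (RelPicard.postComp g g') ξ := by
  refine Subtype.ext ?_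
  rw [coe_rigidPicMap, coe_rigidPicMap, coe_rigidPicMap, Pic.map_map, baseChangeSnd_comp]

theorem rigidPoint_ext {T : Scheme.{u}} {t t' : T ⟶ Spec (CommRingCat.of R)}
    {ξ : rigidPic c ε t} {ξ' : rigidPic c ε t'} (h : t = t') (g : SchemeHomOver t' t)
    (hg : g.1 = 𝟙 T) (hξ : rigidPicMap c ε g ξ = ξ') :
    (⟨t, ξ⟩ : Σ t : T ⟶ Spec (CommRingCat.of R), rigidPic c ε t) = ⟨t', ξ'⟩ := by
  subst h
  rw [rigidPicMap_id c ε g hg] at hξ
  rw [hξ]

theorem rigidPicMap_eq_of_rigidPoint_eq {T : Scheme.{u}} {x y : Σ t : T ⟶ Spec (CommRingCat.of R),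
      rigidPic c ε t} (h : x = y) {Z : Scheme.{u}} {z : Z ⟶ Spec (CommRingCat.of R)}
    (p : SchemeHomOver z x.1) (q : SchemeHomOver z y.1) (hpq : p.1 = q.1) :
    rigidPicMap c ε p x.2 = rigidPicMap c ε q y.2 := by
  subst h
  rw [rigidPicMap_congr c ε hpq]

/-- Rigidified Picard classes as a functor on all schemes. -/
def rigidFunctor : Scheme.{u}ᵒᵖ ⥤ Type u where
  obj T := Σ t : T.unop ⟶ Spec (CommRingCat.of R), rigidPic c ε t
  map f := TypeCat.ofHom fun x => ⟨f.unop ≫ x.1, rigidPicMap c ε ⟨f.unop, rfl⟩ x.2⟩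
  map_id T := TypeCat.homEquiv.injective (funext fun x =>
    rigidPoint_ext c ε (Category.id_comp _) ⟨𝟙 _, by simp⟩ rfl (by
      rw [rigidPicMap_rigidPicMap]
      exact (rigidPicMap_id c ε _ (by simp [RelPicard.postComp]) _)))
  map_comp f g := TypeCat.homEquiv.injective (funext fun x =>
    rigidPoint_ext c ε (Category.assoc _ _ _) ⟨𝟙 _, by
      change 𝟙 _ ≫ (g.unop ≫ f.unop) ≫ x.1 = g.unop ≫ f.unop ≫ x.1
      rw [Category.id_comp, Category.assoc]⟩ rfl (by
      change rigidPicMap c ε _ _ = rigidPicMap c ε _ (rigidPicMap c ε _ _)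
      rw [rigidPicMap_rigidPicMap, rigidPicMap_rigidPicMap]
      exact congrFun (congrArg DFunLike.coe (rigidPicMap_congr c ε (by
        simp [RelPicard.postComp]))) _))

theorem rigidFunctor_map {T T' : Scheme.{u}} (f : T' ⟶ T)
    (x : (rigidFunctor c ε).obj (op T)) :
    (rigidFunctor c ε).map f.op x = ⟨f ≫ x.1, rigidPicMap c ε ⟨f, rfl⟩ x.2⟩ := rfl

end General

variable {k : Type u} [Field k] {C : Scheme.{u}} {c : C ⟶ Spec (CommRingCat.of k)}
  {ε : SchemeHomOver (𝟙 (Spec (CommRingCat.of k))) c} (M : CurveModel c ε)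

include M in
theorem isSheaf_rigidFunctor : Presheaf.IsSheaf Scheme.zariskiTopology (rigidFunctor c ε) := by
  rw [isSheaf_iff_isSheaf_of_type, Precoverage.isSheaf_toGrothendieck_iff_of_isStableUnderBaseChange]
  intro Y S hS
  obtain ⟨(𝓤 : Scheme.OpenCover Y), rfl⟩ := Scheme.exists_cover_of_mem_pretopology hS
  rw [Presieve.isSheafFor_arrows_iff]
  intro x hx
  let y : Y ⟶ Spec (CommRingCat.of k) := 𝓤.glueMorphisms (fun i => (x i).1) fun i j =>
    congrArg Sigma.fst (hx i j _ _ _ pullback.condition)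
  let g : ∀ i, SchemeHomOver (x i).1 y := fun i => ⟨𝓤.f i, 𝓤.ι_glueMorphisms _ _ i⟩
  have hg : ∀ i, IsOpenImmersion (g i).1 := fun i => inferInstanceAs (IsOpenImmersion (𝓤.f i))
  have hcov : ∀ p : Y, ∃ i, p ∈ Set.range (g i).1 := fun p => ⟨_, 𝓤.covers p⟩
  obtain ⟨η, hη⟩ := exists_rigidPic_glue_openCover M (β := 𝓤.I₀) (Tβ := fun i => 𝓤.X i) (tβ := fun i => (x i).1) g hg hcov
    (fun i => (x i).2)
    fun a a' Z z p q hpq => by
      have h := hx a a' Z p.1 q.1 hpq
      have h' := rigidPicMap_eq_of_rigidPoint_eq c ε h (z := z) ⟨𝟙 Z, by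
          change 𝟙 Z ≫ p.1 ≫ (x a).1 = z
          rw [Category.id_comp]; exact p.2⟩ ⟨𝟙 Z, by
          change 𝟙 Z ≫ q.1 ≫ (x a').1 = z
          rw [Category.id_comp]; exact q.2⟩ rfl
      change rigidPicMap c ε _ (rigidPicMap c ε _ (x a).2) =
        rigidPicMap c ε _ (rigidPicMap c ε _ (x a').2) at h'
      rw [rigidPicMap_rigidPicMap, rigidPicMap_rigidPicMap] at h'
      rw [rigidPicMap_congr c ε (g := p) (Category.id_comp p.1).symm,
        rigidPicMap_congr c ε (g := q) (Category.id_comp q.1).symm]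
      exact h'
  refine ⟨⟨y, η⟩, fun i => ?_, ?_⟩
  · refine rigidPoint_ext c ε (g i).2 ⟨𝟙 _, (Category.id_comp _).trans (g i).2⟩ rfl ?_
    rw [rigidPicMap_rigidPicMap, ← hη i]
    exact congrFun (congrArg DFunLike.coe (rigidPicMap_congr c ε (Category.id_comp _))) η
  · rintro ⟨y', η'⟩ h'
    obtain rfl : y' = y := 𝓤.hom_ext _ _ fun i => by
      rw [𝓤.ι_glueMorphisms]
      exact congrArg Sigma.fst (h' i)
    refine rigidPoint_ext c ε rfl ⟨𝟙 _, Category.id_comp _⟩ rfl ?_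
    rw [rigidPicMap_id c ε _ rfl]
    refine rigidPic_ext_of_openCover M (β := 𝓤.I₀) (Tβ := fun i => 𝓤.X i) (tβ := fun i => (x i).1) g hg hcov fun i => ?_
    rw [hη i]
    have h'' := rigidPicMap_eq_of_rigidPoint_eq c ε (h' i) (z := (x i).1)
      ⟨𝟙 _, (Category.id_comp _).trans (g i).2⟩ ⟨𝟙 _, Category.id_comp _⟩ rfl
    change rigidPicMap c ε _ (rigidPicMap c ε _ η') = rigidPicMap c ε _ (x i).2 at h''
    rw [rigidPicMap_id c ε (⟨𝟙 _, _⟩ : SchemeHomOver (x i).1 (x i).1) rfl,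
      rigidPicMap_rigidPicMap] at h''
    rw [← h'']
    exact congrFun (congrArg DFunLike.coe (rigidPicMap_congr c ε (Category.id_comp _).symm)) η'

/-- The Zariski sheaf of rigidified Picard classes. -/
def rigidSheaf (M : CurveModel c ε) : Sheaf Scheme.zariskiTopology (Type u) :=
  ⟨rigidFunctor c ε, isSheaf_rigidFunctor M⟩

end Fermat.Agent.Jac

end
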