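import Fermat.Agent.Jac.Rigid.Basic
import Fermat.Agent.Jac.ModulesPic

/-!
Rigidified line bundles up to isomorphism are rigidified Picard classes.
-/

set_option autoImplicit false
set_option linter.unusedVariables false

noncomputable section

open CategoryTheory CategoryTheory.Limits AlgebraicGeometry NeronModelInfra
open AlgebraicGeometry.RelPicard

namespace Fermat.Agent.Jac

universe u

variable {R : Type u} [CommRing R] {C : Scheme.{u}} {c : C ⟶ Spec (CommRingCat.of R)}
  {ε : SchemeHomOver (𝟙 (Spec (CommRingCat.of R))) c}
  {T T' : Scheme.{u}} {t : T ⟶ Spec (CommRingCat.of R)} {t' : T' ⟶ Spec (CommRingCat.of R)}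

/-- The class of a rigidified line bundle. -/
def bundleClass (M : RigidifiedLineBundle c ε t) : rigidPic c ε t :=
  ⟨picClass M.isInvertible, by
    obtain ⟨e⟩ := M.rigidified
    rw [mem_rigidPic, ← picClass_pullback _ M.isInvertible (M.isInvertible.pullback _),
      (picClass_eq_iff _ (Scheme.Modules.isInvertible_unit _)).mpr ⟨e⟩, picClass_unit]⟩

@[simp] theorem coe_bundleClass (M : RigidifiedLineBundle c ε t) :
    (bundleClass M : Pic (pullback c t)) = picClass M.isInvertible := rfl

theorem bundleClass_eq_iff {M M' : RigidifiedLineBundle c ε t} :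
    bundleClass M = bundleClass M' ↔ Nonempty (M.L ≅ M'.L) := by
  rw [Subtype.ext_iff, coe_bundleClass, coe_bundleClass, picClass_eq_iff]

theorem exists_bundleClass_eq (ξ : rigidPic c ε t) :
    ∃ M : RigidifiedLineBundle c ε t, bundleClass M = ξ := by
  obtain ⟨d, hd⟩ := Pic.mk_surjective (ξ : Pic (pullback c t))
  have h : picClass ((isInvertible_secModules d).pullback (rigSection c t ε)) =
      picClass (Scheme.Modules.isInvertible_unit T) := by
    rw [picClass_pullback _ (isInvertible_secModules d), picClass_secModules, hd,
      mem_rigidPic.mp ξ.2, picClass_unit]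
  refine ⟨⟨secModules d, isInvertible_secModules d, (picClass_eq_iff _ _).mp h⟩, ?_⟩
  exact Subtype.ext ((picClass_secModules d).trans hd)

/-- A rigidified line bundle with given class. -/
def bundleOfClass (ξ : rigidPic c ε t) : RigidifiedLineBundle c ε t :=
  (exists_bundleClass_eq ξ).choose

@[simp] theorem bundleClass_bundleOfClass (ξ : rigidPic c ε t) :
    bundleClass (bundleOfClass ξ) = ξ := (exists_bundleClass_eq ξ).choose_spec

@[simp] theorem bundleClass_unit :
    bundleClass (RigidifiedLineBundle.unit (c := c) (ε := ε) t) = 1 :=
  Subtype.ext (picClass_unit _)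

@[simp] theorem bundleClass_pullbackAlong (M : RigidifiedLineBundle c ε t)
    (g : SchemeHomOver t' t) : bundleClass (M.pullbackAlong g) = rigidPicMap c ε g (bundleClass M) :=
  Subtype.ext (picClass_pullback _ M.isInvertible _)

/-- Isomorphism classes of rigidified line bundles are rigidified Picard classes. -/
def classesEquiv : RigidifiedLineBundle.Classes c ε t ≃ rigidPic c ε t where
  toFun := Quotient.lift bundleClass fun _ _ h => bundleClass_eq_iff.mpr h
  invFun ξ := Quotient.mk _ (bundleOfClass ξ)
  left_inv x := by
    induction x using Quotient.ind with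
    | _ M => exact Quotient.sound (bundleClass_eq_iff.mp (bundleClass_bundleOfClass _))
  right_inv ξ := bundleClass_bundleOfClass ξ

theorem classesEquiv_mk (M : RigidifiedLineBundle c ε t) :
    classesEquiv (Quotient.mk _ M : RigidifiedLineBundle.Classes c ε t) = bundleClass M := rfl

theorem classesEquiv_classesMap (g : SchemeHomOver t' t)
    (x : RigidifiedLineBundle.Classes c ε t) :
    classesEquiv (RigidifiedLineBundle.classesMap g x) = rigidPicMap c ε g (classesEquiv x) := by
  induction x using Quotient.ind with
  | _ M => exact bundleClass_pullbackAlong M g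

theorem classesEquiv_unitClass :
    classesEquiv (Quotient.mk _ (RigidifiedLineBundle.unit t) :
      RigidifiedLineBundle.Classes c ε t) = 1 := bundleClass_unit

end Fermat.Agent.Jac

end
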