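import Fermat.Agent.Jac.Cocycle
import Fermat.Prelude.Def_AlgebraicGeometry_RelativePicardFunctor

/-!
Rigidified Picard classes of a pointed curve.
-/

set_option autoImplicit false
set_option linter.unusedVariables false

noncomputable section

open CategoryTheory CategoryTheory.Limits AlgebraicGeometry NeronModelInfra
open AlgebraicGeometry.RelPicard

namespace Fermat.Agent.Jac

universe u

variable {R : Type u} [CommRing R] {C : Scheme.{u}} (c : C ⟶ Spec (CommRingCat.of R))
  (ε : SchemeHomOver (𝟙 (Spec (CommRingCat.of R))) c)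

/-- Classes of line bundles on `C_T` trivial along the marked section. -/
def rigidPic {T : Scheme.{u}} (t : T ⟶ Spec (CommRingCat.of R)) : Subgroup (Pic (pullback c t)) :=
  (Pic.map (rigSection c t ε)).ker

variable {c ε} {T T' : Scheme.{u}} {t : T ⟶ Spec (CommRingCat.of R)}
  {t' : T' ⟶ Spec (CommRingCat.of R)}

theorem mem_rigidPic {ξ : Pic (pullback c t)} :
    ξ ∈ rigidPic c ε t ↔ Pic.map (rigSection c t ε) ξ = 1 := MonoidHom.mem_ker

variable (c ε)

theorem map_mem_rigidPic (g : SchemeHomOver t' t) {ξ : Pic (pullback c t)}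
    (h : ξ ∈ rigidPic c ε t) : Pic.map (baseChangeSnd c g) ξ ∈ rigidPic c ε t' := by
  rw [mem_rigidPic] at h ⊢
  rw [Pic.map_map, rigSection_baseChangeSnd, ← Pic.map_map, h, map_one]

/-- Pullback of rigidified classes. -/
def rigidPicMap (g : SchemeHomOver t' t) : rigidPic c ε t →* rigidPic c ε t' :=
  ((Pic.map (baseChangeSnd c g)).comp (rigidPic c ε t).subtype).codRestrict _ fun ξ =>
    map_mem_rigidPic c ε g ξ.2

@[simp] theorem coe_rigidPicMap (g : SchemeHomOver t' t) (ξ : rigidPic c ε t) :
    (rigidPicMap c ε g ξ : Pic (pullback c t')) = Pic.map (baseChangeSnd c g) ξ := rfl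

/-- Twist a class to make it trivial along the marked section. -/
def rigidify (t : T ⟶ Spec (CommRingCat.of R)) : Pic (pullback c t) →* rigidPic c ε t :=
  (MonoidHom.id _ / (Pic.map (pullback.snd c t)).comp (Pic.map (rigSection c t ε))).codRestrict _
    fun ξ => by
      rw [mem_rigidPic, MonoidHom.div_apply, map_div, MonoidHom.comp_apply, MonoidHom.id_apply,
        Pic.map_map (rigSection c t ε) (pullback.snd c t), rigSection, pullback.lift_snd,
        Pic.map_id, div_self']

theorem coe_rigidify (t : T ⟶ Spec (CommRingCat.of R)) (ξ : Pic (pullback c t)) :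
    (rigidify c ε t ξ : Pic (pullback c t)) =
      ξ / Pic.map (pullback.snd c t) (Pic.map (rigSection c t ε) ξ) := rfl

theorem rigidify_coe (t : T ⟶ Spec (CommRingCat.of R)) (ξ : rigidPic c ε t) :
    rigidify c ε t ξ = ξ := by
  refine Subtype.ext ?_
  rw [coe_rigidify, mem_rigidPic.mp ξ.2, map_one, div_one]

end Fermat.Agent.Jac
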