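import Fermat.Agent.Jac.Rigid.Units

/-!
Rigidified Picard classes are determined locally on the base and glue.
-/

set_option autoImplicit false
set_option linter.unusedVariables false

noncomputable section

open CategoryTheory CategoryTheory.Limits AlgebraicGeometry TopologicalSpace Opposite NeronModelInfra
open AlgebraicGeometry.RelPicard

namespace Fermat.Agent.Jac

universe u

namespace LCocycle

variable {X X' T T' : Scheme.{u}} {ι : Type u} (b : X' ⟶ X) [IsOpenImmersion b] (f : T' ⟶ T)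
  [IsOpenImmersion f] {σ : T ⟶ X} {σ' : T' ⟶ X'}

/-- The frame of a pushed forward cocycle. -/
def Frame.push (d : Cocycle X' ι) (s : Sec (d.pull σ') ⊤) (hs : s.IsGen)
    (hσ : σ' ≫ b = f ≫ σ) (hr : σ ⁻¹ᵁ b.opensRange ≤ f.opensRange) :
    Frame σ (LCocycle.push b d) where
  ν i V hi := (openEquiv f (hi.trans ((σ.preimage_mono (b.image_le_opensRange _)).trans hr))).symm
    (s.val i (f ⁻¹ᵁ V) le_top (by
      refine (f.preimage_mono hi).trans ?_
      rw [← Scheme.Hom.comp_preimage, ← hσ, Scheme.Hom.comp_preimage]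
      exact σ'.preimage_mono (b.preimage_image_eq _).le))
  res_ν i V V' h hi := by rw [openEquiv_res, Sec.res_val]
  isUnit_ν i V hi := (hs ..).map _
  ν_g i j W V hi hj h := by
    have hV : V ≤ f.opensRange :=
      h.trans ((σ.preimage_mono (hi.trans (b.image_le_opensRange _))).trans hr)
    have hW : f ⁻¹ᵁ V ≤ σ' ⁻¹ᵁ (b ⁻¹ᵁ W) := by
      refine (f.preimage_mono h).trans ?_
      rw [← Scheme.Hom.comp_preimage, ← hσ, Scheme.Hom.comp_preimage]
    apply (openEquiv f hV).injective
    rw [map_mul, RingEquiv.apply_symm_apply, RingEquiv.apply_symm_apply, openEquiv_apply,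
      appLEHom_appLEHom, appLEHom_congr hσ.symm, ← appLEHom_appLEHom σ' b hW le_rfl]
    have hg := s.g_val i j (f ⁻¹ᵁ V) le_top
      (hW.trans (σ'.preimage_mono ((b.preimage_mono hi).trans (b.preimage_image_eq _).le)))
      (hW.trans (σ'.preimage_mono ((b.preimage_mono hj).trans (b.preimage_image_eq _).le)))
    rw [Cocycle.pull_g σ' d i j (f ⁻¹ᵁ V) (b ⁻¹ᵁ W) hW
      ((b.preimage_mono hi).trans (b.preimage_image_eq _).le)
      ((b.preimage_mono hj).trans (b.preimage_image_eq _).le)] at hg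
    rw [← openEquiv_apply b (hi.trans (b.image_le_opensRange _))]
    change appLEHom σ' hW (openEquiv b (hi.trans (b.image_le_opensRange _))
      ((openEquiv b (hi.trans (b.image_le_opensRange _))).symm _)) * _ = _
    rw [RingEquiv.apply_symm_apply]
    exact hg

end LCocycle

variable {k : Type u} [Field k] {C : Scheme.{u}} {c : C ⟶ Spec (CommRingCat.of k)}
  {ε : SchemeHomOver (𝟙 (Spec (CommRingCat.of k))) c} (M : CurveModel c ε)
  {T : Scheme.{u}} {t : T ⟶ Spec (CommRingCat.of k)}
  {α : Type u} {Tα : α → Scheme.{u}} {tα : ∀ a, Tα a ⟶ Spec (CommRingCat.of k)}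
  (g : ∀ a, SchemeHomOver (tα a) t)

include M in
/-- Rigidified classes agreeing on an open cover of the base are equal. -/
theorem rigidPic_ext_of_cover (hg : ∀ a, IsOpenImmersion (g a).1)
    (hcov : ∀ x : T, ∃ a, x ∈ Set.range (g a).1) {ξ ξ' : rigidPic c ε t}
    (h : ∀ a, rigidPicMap c ε (g a) ξ = rigidPicMap c ε (g a) ξ') : ξ = ξ' := by
  obtain ⟨d, hd⟩ := Pic.mk_surjective (ξ : Pic (pullback c t))
  obtain ⟨d', hd'⟩ := Pic.mk_surjective (ξ' : Pic (pullback c t))
  have hσ := mem_rigidPic.mp ξ.2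
  have hσ' := mem_rigidPic.mp ξ'.2
  rw [← hd, Pic.map_mk, Pic.mk_eq_one_iff] at hσ
  rw [← hd', Pic.map_mk, Pic.mk_eq_one_iff] at hσ'
  obtain ⟨s, hs⟩ := hσ
  obtain ⟨s', hs'⟩ := hσ'
  refine Subtype.ext ?_
  rw [← hd, ← hd', Pic.mk_eq_mk_iff]
  have := hg
  have := fun a => isOpenImmersion_baseChangeSnd c (g a) (hg a)
  refine LCocycle.rel_of_local (M.rigidProj t) (LCocycle.Frame.ofSec d s hs)
    (LCocycle.Frame.ofSec d' s' hs') (fun a => (g a).1.opensRange) hcov fun a => ?_
  have e := congrArg Subtype.val (h a)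
  simp only [coe_rigidPicMap, ← hd, ← hd', Pic.map_mk, Pic.mk_eq_mk_iff] at e
  refine LCocycle.LComp.nonempty_of_rel (baseChangeSnd c (g a))
    (hc := fun x => d.cover _) (hc' := fun x => d'.cover _)
    (opensRange_baseChangeSnd c (g a)).ge ?_
  exact (LCocycle.pullL_toL_rel _ d _).trans (e.trans (LCocycle.pullL_toL_rel _ d' _).symm)

include M in
/-- Compatible rigidified classes on an open cover of the base glue. -/
theorem exists_rigidPic_glue (hg : ∀ a, IsOpenImmersion (g a).1)
    (hcov : ∀ x : T, ∃ a, x ∈ Set.range (g a).1) (ξ : ∀ a, rigidPic c ε (tα a))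
    (h : ∀ a a' (Z : Scheme.{u}) (z : Z ⟶ Spec (CommRingCat.of k)) (p : SchemeHomOver z (tα a))
      (q : SchemeHomOver z (tα a')), p.1 ≫ (g a).1 = q.1 ≫ (g a').1 →
      rigidPicMap c ε p (ξ a) = rigidPicMap c ε q (ξ a')) :
    ∃ η : rigidPic c ε t, ∀ a, rigidPicMap c ε (g a) η = ξ a := by
  have := hg
  have hb := fun a => isOpenImmersion_baseChangeSnd c (g a) (hg a)
  choose d hd using fun a => Pic.mk_surjective (ξ a : Pic (pullback c (tα a)))
  have hσ : ∀ a, ∃ s : Sec ((d a).pull (rigSection c (tα a) ε)) ⊤, s.IsGen := fun a => by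
    have := mem_rigidPic.mp (ξ a).2
    rwa [← hd a, Pic.map_mk, Pic.mk_eq_one_iff] at this
  choose s hs using hσ
  let V : α → T.Opens := fun a => (g a).1.opensRange
  let cα := fun a => LCocycle.push (baseChangeSnd c (g a)) (d a)
  have hcovX : ∀ a, ∀ x ∈ pullback.snd c t ⁻¹ᵁ V a, ∃ i, x ∈ (cα a).U i := fun a x hx => by
    obtain ⟨y, rfl⟩ : x ∈ (baseChangeSnd c (g a)).opensRange :=
      (opensRange_baseChangeSnd c (g a)).ge hx
    obtain ⟨i, hi⟩ := (d a).cover y
    exact ⟨i, y, hi, rfl⟩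
  obtain ⟨Cg, hC, hCσ⟩ := LCocycle.exists_glue (M.rigidProj t) V hcov cα
    (fun a => LCocycle.Frame.push (baseChangeSnd c (g a)) (g a).1 (d a) (s a) (hs a)
      (rigSection_baseChangeSnd c ε (g a))
      (by
        rw [opensRange_baseChangeSnd c (g a), ← Scheme.Hom.comp_preimage, rigSection_comp_snd]
        exact le_rfl))
    (fun a i => ((baseChangeSnd c (g a)).image_le_opensRange _).trans
      (opensRange_baseChangeSnd c (g a)).le)
    hcovX (fun a a' => by
      let W : T.Opens := V a ⊓ V a'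
      have hWa : Set.range W.ι ⊆ Set.range (g a).1 := by
        rw [Scheme.Opens.range_ι]; exact fun x hx => hx.1
      have hWa' : Set.range W.ι ⊆ Set.range (g a').1 := by
        rw [Scheme.Opens.range_ι]; exact fun x hx => hx.2
      let p : SchemeHomOver (W.ι ≫ t) (tα a) := ⟨IsOpenImmersion.lift (g a).1 W.ι hWa, by
        exact (congrArg (IsOpenImmersion.lift (g a).1 W.ι hWa ≫ ·) (g a).2).symm.trans
          (IsOpenImmersion.lift_fac_assoc _ _ _ _)⟩
      let q : SchemeHomOver (W.ι ≫ t) (tα a') := ⟨IsOpenImmersion.lift (g a').1 W.ι hWa', by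
        exact (congrArg (IsOpenImmersion.lift (g a').1 W.ι hWa' ≫ ·) (g a').2).symm.trans
          (IsOpenImmersion.lift_fac_assoc _ _ _ _)⟩
      let w : SchemeHomOver (W.ι ≫ t) t := ⟨W.ι, rfl⟩
      have hp : baseChangeSnd c p ≫ baseChangeSnd c (g a) = baseChangeSnd c w := by
        rw [baseChangeSnd_comp]
        exact congrArg _ (Subtype.ext (IsOpenImmersion.lift_fac _ _ _))
      have hq : baseChangeSnd c q ≫ baseChangeSnd c (g a') = baseChangeSnd c w := by
        rw [baseChangeSnd_comp]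
        exact congrArg _ (Subtype.ext (IsOpenImmersion.lift_fac _ _ _))
      have e := congrArg Subtype.val
        (h a a' _ _ p q ((IsOpenImmersion.lift_fac _ _ _).trans
          (IsOpenImmersion.lift_fac _ _ _).symm))
      simp only [coe_rigidPicMap, ← hd, Pic.map_mk, Pic.mk_eq_mk_iff] at e
      have := isOpenImmersion_baseChangeSnd c w (inferInstanceAs (IsOpenImmersion W.ι))
      have hwr : (baseChangeSnd c w).opensRange = pullback.snd c t ⁻¹ᵁ W := by
        rw [opensRange_baseChangeSnd c w]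
        exact congrArg _ W.opensRange_ι
      have hin : ∀ y, baseChangeSnd c w y ∈ pullback.snd c t ⁻¹ᵁ W := fun y =>
        hwr.le ⟨y, rfl⟩
      refine LCocycle.LComp.nonempty_of_rel (baseChangeSnd c w)
        (hc := fun y => hcovX a _ (hin y).1) (hc' := fun y => hcovX a' _ (hin y).2) hwr.ge ?_
      exact (LCocycle.push_pullL_rel _ (d a) _ _ hp _).trans
        (e.trans (LCocycle.push_pullL_rel _ (d a') _ _ hq _).symm))
  refine ⟨⟨Pic.mk Cg, mem_rigidPic.mpr hCσ⟩, fun a => Subtype.ext ?_⟩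
  rw [coe_rigidPicMap, ← hd a, Pic.map_mk, Pic.mk_eq_mk_iff]
  obtain ⟨e⟩ := hC a
  have hin : ∀ y, baseChangeSnd c (g a) y ∈ pullback.snd c t ⁻¹ᵁ V a := fun y =>
    (opensRange_baseChangeSnd c (g a)).le ⟨y, rfl⟩
  exact (LCocycle.pullL_toL_rel _ Cg (fun y => Cg.cover _)).symm.trans
    ((e.rel (baseChangeSnd c (g a)) hin (fun y => Cg.cover _) (fun y => hcovX a _ (hin y))).trans
      ((LCocycle.push_pullL_rel _ (d a) (𝟙 _) _ (Category.id_comp _) _).trans
        (Cocycle.pull_id_rel _).symm))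

section LargeIndex

universe w

variable {β : Type w} {Tβ : β → Scheme.{u}} {tβ : ∀ a, Tβ a ⟶ Spec (CommRingCat.of k)}
  (g' : ∀ a, SchemeHomOver (tβ a) t)

include M in
/-- Rigidified classes agreeing on an open cover with any index type are equal. -/
theorem rigidPic_ext_of_openCover (hg : ∀ a, IsOpenImmersion (g' a).1)
    (hcov : ∀ x : T, ∃ a, x ∈ Set.range (g' a).1) {ξ ξ' : rigidPic c ε t}
    (h : ∀ a, rigidPicMap c ε (g' a) ξ = rigidPicMap c ε (g' a) ξ') : ξ = ξ' :=
  rigidPic_ext_of_cover M (fun p : T => g' (hcov p).choose) (fun p => hg _)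
    (fun p => ⟨p, (hcov p).choose_spec⟩) fun p => h _

include M in
/-- Gluing of rigidified classes on an open cover with any index type. -/
theorem exists_rigidPic_glue_openCover (hg : ∀ a, IsOpenImmersion (g' a).1)
    (hcov : ∀ x : T, ∃ a, x ∈ Set.range (g' a).1) (ξ : ∀ a, rigidPic c ε (tβ a))
    (h : ∀ a a' (Z : Scheme.{u}) (z : Z ⟶ Spec (CommRingCat.of k)) (p : SchemeHomOver z (tβ a))
      (q : SchemeHomOver z (tβ a')), p.1 ≫ (g' a).1 = q.1 ≫ (g' a').1 →
      rigidPicMap c ε p (ξ a) = rigidPicMap c ε q (ξ a')) :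
    ∃ η : rigidPic c ε t, ∀ a, rigidPicMap c ε (g' a) η = ξ a := by
  let r : T → β := fun p => (hcov p).choose
  obtain ⟨η, hη⟩ := exists_rigidPic_glue M (fun p => g' (r p)) (fun p => hg _)
    (fun p => ⟨p, (hcov p).choose_spec⟩) (fun p => ξ (r p)) fun p p' => h (r p) (r p')
  refine ⟨η, fun a => ?_⟩
  have := hg
  let pr : ∀ p : T, SchemeHomOver (pullback.fst (g' a).1 (g' (r p)).1 ≫ tβ a) (tβ a) :=
    fun p => ⟨pullback.fst _ _, rfl⟩
  refine rigidPic_ext_of_cover M pr
    (fun p => inferInstanceAs (IsOpenImmersion (pullback.fst (g' a).1 (g' (r p)).1))) (fun x => ?_)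
    fun p => ?_
  · refine ⟨(g' a).1 x, ?_⟩
    change x ∈ Set.range (pullback.fst (g' a).1 (g' (r ((g' a).1 x))).1)
    rw [Scheme.Pullback.range_fst]
    exact (hcov _).choose_spec
  · let qr : SchemeHomOver (pullback.fst (g' a).1 (g' (r p)).1 ≫ tβ a) (tβ (r p)) :=
      ⟨pullback.snd _ _, by
        calc pullback.snd (g' a).1 (g' (r p)).1 ≫ tβ (r p)
            = pullback.snd (g' a).1 (g' (r p)).1 ≫ ((g' (r p)).1 ≫ t) :=
              congrArg _ (g' (r p)).2.symm
          _ = pullback.fst (g' a).1 (g' (r p)).1 ≫ ((g' a).1 ≫ t) := by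
              rw [← Category.assoc, ← pullback.condition, Category.assoc]
          _ = _ := congrArg _ (g' a).2⟩
    rw [h a (r p) _ _ (pr p) qr pullback.condition, ← hη p]
    refine Subtype.ext ?_
    simp only [coe_rigidPicMap, Pic.map_map, baseChangeSnd_comp]
    have e : RelPicard.postComp (g' a) (pr p) = RelPicard.postComp (g' (r p)) qr :=
      Subtype.ext pullback.condition
    rw [e]

end LargeIndex

end Fermat.Agent.Jac

end
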