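import Fermat.Agent.Jac.Rigid.Local

/-!
Uniqueness of normalised comparisons and gluing of framed cocycles along a base cover.
-/

set_option autoImplicit false
set_option linter.unusedVariables false

noncomputable section

open CategoryTheory AlgebraicGeometry TopologicalSpace Opposite

namespace Fermat.Agent.Jac

universe u w

variable {X T : Scheme.{u}} {π : X ⟶ T} {σ : T ⟶ X} {ι κ μ : Type u}

/-- A projection with a section such that functions on preimages of opens which are `1` on the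
section are `1`. -/
structure RigidProj (π : X ⟶ T) (σ : T ⟶ X) : Prop where
  sec : σ ≫ π = 𝟙 T
  ext_unit : ∀ (V : T.Opens) (a : Γ(X, π ⁻¹ᵁ V)) (h : V ≤ σ ⁻¹ᵁ (π ⁻¹ᵁ V)),
    appLEHom σ h a = 1 → a = 1

theorem RigidProj.le_preimage (R : RigidProj π σ) (V : T.Opens) : V ≤ σ ⁻¹ᵁ (π ⁻¹ᵁ V) := by
  rw [← Scheme.Hom.comp_preimage, R.sec]
  exact le_rfl

theorem RigidProj.appLE_pull (R : RigidProj π σ) {V V' : T.Opens} {W : X.Opens} (hW : W ≤ π ⁻¹ᵁ V)
    (h : V' ≤ σ ⁻¹ᵁ W) (hV' : V' ≤ V) (a : Γ(T, V)) :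
    appLEHom σ h (appLEHom π hW a) = res hV' a := by
  rw [appLEHom_appLEHom, appLEHom_congr R.sec, appLEHom_id]

/-- Two families agreeing along the section with the same ratios are equal. -/
theorem RigidProj.eq_of_normal (R : RigidProj π σ) {V0 : T.Opens} (P : μ → X.Opens)
    (hP : π ⁻¹ᵁ V0 ≤ iSup P) (x y : ∀ p (V : X.Opens), V ≤ π ⁻¹ᵁ V0 → V ≤ P p → Γ(X, V))
    (hx : ∀ p V V' (h : V' ≤ V) (hV : V ≤ π ⁻¹ᵁ V0) (hp : V ≤ P p),
      res h (x p V hV hp) = x p V' (h.trans hV) (h.trans hp))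
    (hy : ∀ p V V' (h : V' ≤ V) (hV : V ≤ π ⁻¹ᵁ V0) (hp : V ≤ P p),
      res h (y p V hV hp) = y p V' (h.trans hV) (h.trans hp))
    (hu : ∀ p V hV hp, IsUnit (y p V hV hp))
    (compat : ∀ p q V hV hp hq, x p V hV hp * y q V hV hq = x q V hV hq * y p V hV hp)
    (norm : ∀ p V hV hp (V' : T.Opens) (h : V' ≤ σ ⁻¹ᵁ V),
      appLEHom σ h (x p V hV hp) = appLEHom σ h (y p V hV hp))
    (p : μ) (V : X.Opens) (hV : V ≤ π ⁻¹ᵁ V0) (hp : V ≤ P p) : x p V hV hp = y p V hV hp := by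
  obtain ⟨r, hr, -⟩ := sections_glue P hP
    (fun p V hV hp => x p V hV hp * ↑(hu p V hV hp).unit⁻¹)
    (fun p V V' h hV hp => by
      apply (hu p V' (h.trans hV) (h.trans hp)).mul_right_cancel
      rw [mul_assoc _ _ (y p V' _ _), IsUnit.val_inv_mul, mul_one, ← hy p V V' h hV hp, ← map_mul,
        mul_assoc, IsUnit.val_inv_mul, mul_one, hx])
    (fun p q V hV hp hq => by
      apply ((hu p V hV hp).mul (hu q V hV hq)).mul_right_cancel
      calc x p V hV hp * ↑(hu p V hV hp).unit⁻¹ * (y p V hV hp * y q V hV hq)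
          = x p V hV hp * y q V hV hq * (↑(hu p V hV hp).unit⁻¹ * y p V hV hp) := by ring
        _ = x q V hV hq * y p V hV hp * (↑(hu q V hV hq).unit⁻¹ * y q V hV hq) := by
            rw [IsUnit.val_inv_mul, IsUnit.val_inv_mul, compat]
        _ = x q V hV hq * ↑(hu q V hV hq).unit⁻¹ * (y p V hV hp * y q V hV hq) := by ring)
  have hr1 : r = 1 := by
    refine R.ext_unit V0 r (R.le_preimage V0) ?_
    refine sections_ext (fun p => σ ⁻¹ᵁ (π ⁻¹ᵁ V0 ⊓ P p)) (fun t ht => ?_) fun p V' hV' hp' => ?_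
    · obtain ⟨p, hp⟩ := Opens.mem_iSup.mp (hP (show σ t ∈ π ⁻¹ᵁ V0 from R.le_preimage V0 ht))
      exact Opens.mem_iSup.mpr ⟨p, R.le_preimage V0 ht, hp⟩
    · rw [res_appLEHom, map_one]
      have h1 := hr p (π ⁻¹ᵁ V0 ⊓ P p) inf_le_left inf_le_right
      have h2 := congrArg (appLEHom σ hp') h1
      rw [appLEHom_res, map_mul, norm p _ _ _ _ hp', ← map_mul, IsUnit.mul_val_inv, map_one] at h2
      exact h2
  have h := hr p V hV hp
  rw [hr1, map_one] at h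
  calc x p V hV hp = x p V hV hp * (↑(hu p V hV hp).unit⁻¹ * y p V hV hp) := by
        rw [IsUnit.val_inv_mul, mul_one]
    _ = y p V hV hp := by rw [← mul_assoc, ← h, one_mul]

namespace LCocycle

/-- A trivialisation of a local cocycle along a section. -/
structure Frame (σ : T ⟶ X) (c : LCocycle X ι) where
  ν : ∀ i (V : T.Opens), V ≤ σ ⁻¹ᵁ c.U i → Γ(T, V)
  res_ν : ∀ i (V V' : T.Opens) (h : V' ≤ V) (hi : V ≤ σ ⁻¹ᵁ c.U i),
    res h (ν i V hi) = ν i V' (h.trans hi)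
  isUnit_ν : ∀ i (V : T.Opens) (hi : V ≤ σ ⁻¹ᵁ c.U i), IsUnit (ν i V hi)
  ν_g : ∀ i j (W : X.Opens) (V : T.Opens) (hi : W ≤ c.U i) (hj : W ≤ c.U j) (h : V ≤ σ ⁻¹ᵁ W),
    appLEHom σ h (c.g i j W hi hj) * ν j V (h.trans (σ.preimage_mono hj)) =
      ν i V (h.trans (σ.preimage_mono hi))

attribute [simp] Frame.res_ν

variable {c : LCocycle X ι} {c' : LCocycle X κ} {c'' : LCocycle X μ}

/-- A comparison respecting frames. -/
def LComp.IsNormal {W : X.Opens} (e : LComp c c' W) (f : Frame σ c) (f' : Frame σ c') : Prop :=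
  ∀ i a (V : X.Opens) (hV : V ≤ W) (hi : V ≤ c.U i) (ha : V ≤ c'.U a) (V' : T.Opens)
    (h : V' ≤ σ ⁻¹ᵁ V),
    appLEHom σ h (e.φ i a V hV hi ha) * f'.ν a V' (h.trans (σ.preimage_mono ha)) =
      f.ν i V' (h.trans (σ.preimage_mono hi))

/-- Multiply a comparison by a function from the base. -/
def LComp.twist {V0 : T.Opens} (π : X ⟶ T) (e : LComp c c' (π ⁻¹ᵁ V0)) (u : Γ(T, V0))
    (hu : IsUnit u) : LComp c c' (π ⁻¹ᵁ V0) where
  φ i a V hV hi ha := e.φ i a V hV hi ha * appLEHom π hV u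
  res_φ i a V V' h hV hi ha := by simp
  isUnit_φ i a V hV hi ha := (e.isUnit_φ ..).mul (hu.map _)
  g_φ i j a V hV hi hj ha := by rw [← mul_assoc, e.g_φ]
  φ_g i a a' V hV hi ha ha' := by rw [mul_right_comm, e.φ_g]

theorem exists_normal (R : RigidProj π σ) {V0 : T.Opens} (e : LComp c c' (π ⁻¹ᵁ V0))
    (f : Frame σ c) (f' : Frame σ c') (hc : ∀ x ∈ π ⁻¹ᵁ V0, ∃ i, x ∈ c.U i)
    (hc' : ∀ x ∈ π ⁻¹ᵁ V0, ∃ a, x ∈ c'.U a) :
    ∃ e' : LComp c c' (π ⁻¹ᵁ V0), e'.IsNormal f f' := by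
  let P : ι × κ → X.Opens := fun p => π ⁻¹ᵁ V0 ⊓ (c.U p.1 ⊓ c'.U p.2)
  have hP : V0 ≤ iSup fun p => σ ⁻¹ᵁ P p := fun t ht => by
    obtain ⟨i, hi⟩ := hc _ (R.le_preimage V0 ht)
    obtain ⟨a, ha⟩ := hc' _ (R.le_preimage V0 ht)
    exact Opens.mem_iSup.mpr ⟨(i, a), R.le_preimage V0 ht, hi, ha⟩
  have pV : ∀ p, P p ≤ π ⁻¹ᵁ V0 := fun p => inf_le_left
  have pi : ∀ p, P p ≤ c.U p.1 := fun p => inf_le_right.trans inf_le_left
  have pa : ∀ p, P p ≤ c'.U p.2 := fun p => inf_le_right.trans inf_le_right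
  let S : ∀ p (V : T.Opens), V ≤ σ ⁻¹ᵁ P p → Γ(T, V) := fun p V hp =>
    appLEHom σ hp (e.φ p.1 p.2 (P p) (pV p) (pi p) (pa p))
  have hS : ∀ (p : ι × κ) (V : T.Opens) (Q : X.Opens) (hQ : Q ≤ P p) (h : V ≤ σ ⁻¹ᵁ Q),
      appLEHom σ h (e.φ p.1 p.2 Q (hQ.trans (pV p)) (hQ.trans (pi p)) (hQ.trans (pa p))) =
        S p V (h.trans (σ.preimage_mono hQ)) := fun p V Q hQ h => by
    rw [← e.res_φ p.1 p.2 (P p) Q hQ (pV p) (pi p) (pa p), appLEHom_res]
  let a : ∀ p (V : T.Opens), V ≤ V0 → V ≤ σ ⁻¹ᵁ P p → Γ(T, V) := fun p V _ hp =>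
    S p V hp * f'.ν p.2 V (hp.trans (σ.preimage_mono (pa p))) *
      ↑(f.isUnit_ν p.1 V (hp.trans (σ.preimage_mono (pi p)))).unit⁻¹
  obtain ⟨u, hu, -⟩ := sections_glue (fun p => σ ⁻¹ᵁ P p) hP a
    (fun p V V' h hV hp => by
      apply (f.isUnit_ν p.1 V' ((h.trans hp).trans (σ.preimage_mono (pi p)))).mul_right_cancel
      conv_lhs => rw [← f.res_ν p.1 V V' h (hp.trans (σ.preimage_mono (pi p)))]
      simp only [a, S, ← map_mul, mul_assoc, IsUnit.val_inv_mul, mul_one]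
      rw [map_mul, res_appLEHom, f'.res_ν])
    (fun p q V hV hp hq => by
      obtain ⟨i, b⟩ := p
      obtain ⟨j, b'⟩ := q
      apply ((f.isUnit_ν i V (hp.trans (σ.preimage_mono (pi _)))).mul
        (f.isUnit_ν j V (hq.trans (σ.preimage_mono (pi _))))).mul_right_cancel
      let Q : X.Opens := P (i, b) ⊓ P (j, b')
      have hQ : V ≤ σ ⁻¹ᵁ Q := le_inf hp hq
      have qV : Q ≤ π ⁻¹ᵁ V0 := inf_le_left.trans (pV _)
      have qi : Q ≤ c.U i := inf_le_left.trans (pi (i, b))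
      have qj : Q ≤ c.U j := inf_le_right.trans (pi (j, b'))
      have qb : Q ≤ c'.U b := inf_le_left.trans (pa (i, b))
      have qb' : Q ≤ c'.U b' := inf_le_right.trans (pa (j, b'))
      have k1 := congrArg (appLEHom σ hQ) ((e.g_φ i j b' Q qV qi qj qb').trans
        (e.φ_g i b b' Q qV qi qb qb').symm)
      rw [map_mul, map_mul, hS (j, b') V Q inf_le_right hQ, hS (i, b) V Q inf_le_left hQ] at k1
      have k2 := f.ν_g i j Q V qi qj hQ
      have k3 := f'.ν_g b b' Q V qb qb' hQ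
      simp only [a]
      calc S (i, b) V hp * f'.ν b V _ * ↑(f.isUnit_ν i V _).unit⁻¹ * (f.ν i V _ * f.ν j V _)
          = S (i, b) V hp * f'.ν b V _ * f.ν j V _ *
              (↑(f.isUnit_ν i V _).unit⁻¹ * f.ν i V _) := by ring
        _ = S (i, b) V hp * appLEHom σ hQ (c'.g b b' Q qb qb') *
              (f'.ν b' V (hq.trans (σ.preimage_mono (pa (j, b')))) *
              f.ν j V (hq.trans (σ.preimage_mono (pi (j, b'))))) := by
            rw [IsUnit.val_inv_mul, ← k3]; ring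
        _ = S (j, b') V hq * f'.ν b' V _ * f.ν i V (hp.trans (σ.preimage_mono (pi (i, b)))) *
              (↑(f.isUnit_ν j V (hq.trans (σ.preimage_mono (pi (j, b'))))).unit⁻¹ *
                f.ν j V (hq.trans (σ.preimage_mono (pi (j, b'))))) := by
            rw [IsUnit.val_inv_mul, ← k1, ← k2]; ring
        _ = _ := by ring)
  have huu : IsUnit u := isUnit_of_cover _ hP fun p V hV hp => by
    rw [hu p V hV hp]
    exact (((e.isUnit_φ ..).map _).mul (f'.isUnit_ν ..)).mul (Units.isUnit _)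
  refine ⟨e.twist π ↑huu.unit⁻¹ (Units.isUnit _), fun i b V hV hi hb V' h => ?_⟩
  have hV0 : V' ≤ V0 := by
    have h' := h.trans (σ.preimage_mono hV)
    rwa [← Scheme.Hom.comp_preimage, R.sec] at h'
  change appLEHom σ h (e.φ i b V hV hi hb * appLEHom π hV ↑huu.unit⁻¹) * _ = _
  have hpp : V ≤ P (i, b) := le_inf hV (le_inf hi hb)
  rw [map_mul, R.appLE_pull hV h hV0, hS (i, b) V' V hpp h]
  apply (huu.map (res hV0)).mul_left_cancel
  have h1 := hu (i, b) V' hV0 (h.trans (σ.preimage_mono hpp))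
  calc res hV0 u * (S (i, b) V' _ * res hV0 ↑huu.unit⁻¹ * f'.ν b V' _)
      = res hV0 (u * ↑huu.unit⁻¹) * (S (i, b) V' _ * f'.ν b V' _) := by rw [map_mul]; ring
    _ = _ := by
      rw [IsUnit.mul_val_inv, map_one, one_mul, h1]
      simp only [a]
      rw [mul_assoc (S (i, b) V' _ * _), IsUnit.val_inv_mul, mul_one]

theorem LComp.IsNormal.eq (R : RigidProj π σ) {V0 : T.Opens} {W W' : X.Opens} {e : LComp c c' W}
    {e' : LComp c c' W'} {f : Frame σ c} {f' : Frame σ c'} (h : e.IsNormal f f')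
    (h' : e'.IsNormal f f') (hW : π ⁻¹ᵁ V0 ≤ W) (hW' : π ⁻¹ᵁ V0 ≤ W')
    (hc : ∀ x ∈ π ⁻¹ᵁ V0, ∃ i, x ∈ c.U i) (hc' : ∀ x ∈ π ⁻¹ᵁ V0, ∃ a, x ∈ c'.U a)
    (i : ι) (a : κ) (V : X.Opens) (hV : V ≤ π ⁻¹ᵁ V0) (hi : V ≤ c.U i) (ha : V ≤ c'.U a) :
    e.φ i a V (hV.trans hW) hi ha = e'.φ i a V (hV.trans hW') hi ha := by
  refine R.eq_of_normal (μ := ι × κ) (fun p => c.U p.1 ⊓ c'.U p.2) (fun x hx => ?_)
    (fun p V hV hp => e.φ p.1 p.2 V (hV.trans hW) (hp.trans inf_le_left) (hp.trans inf_le_right))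
    (fun p V hV hp => e'.φ p.1 p.2 V (hV.trans hW') (hp.trans inf_le_left) (hp.trans inf_le_right))
    (fun p V V' hle hV hp => e.res_φ ..) (fun p V V' hle hV hp => e'.res_φ ..)
    (fun p V hV hp => e'.isUnit_φ ..) ?_ ?_ (i, a) V hV (le_inf hi ha)
  · obtain ⟨i, hi⟩ := hc x hx
    obtain ⟨a, ha⟩ := hc' x hx
    exact Opens.mem_iSup.mpr ⟨(i, a), hi, ha⟩
  · rintro ⟨i, a⟩ ⟨j, b⟩ V hV hp hq
    have pi := hp.trans inf_le_left
    have pa := hp.trans inf_le_right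
    have qj := hq.trans inf_le_left
    have qb := hq.trans inf_le_right
    apply (c'.isUnit_g a b V pa qb).mul_right_cancel
    rw [mul_right_comm, e.φ_g i a b V _ pi pa qb, mul_assoc, e'.φ_g i a b V _ pi pa qb,
      ← e.g_φ i j b V _ pi qj qb, ← e'.g_φ i j b V _ pi qj qb]
    ring
  · rintro ⟨i, a⟩ V hV hp V' hV'
    apply (f'.isUnit_ν a V' (hV'.trans (σ.preimage_mono (hp.trans inf_le_right)))).mul_right_cancel
    exact (h i a V _ _ _ V' hV').trans (h' i a V _ _ _ V' hV').symm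

theorem LComp.IsNormal.comp (R : RigidProj π σ) {V0 : T.Opens} {W₁₂ W₂₃ W₁₃ : X.Opens}
    {e₁₂ : LComp c c' W₁₂} {e₂₃ : LComp c' c'' W₂₃} {e₁₃ : LComp c c'' W₁₃}
    {f : Frame σ c} {f' : Frame σ c'} {f'' : Frame σ c''} (h₁₂ : e₁₂.IsNormal f f')
    (h₂₃ : e₂₃.IsNormal f' f'') (h₁₃ : e₁₃.IsNormal f f'')
    (hW₁₂ : π ⁻¹ᵁ V0 ≤ W₁₂) (hW₂₃ : π ⁻¹ᵁ V0 ≤ W₂₃) (hW₁₃ : π ⁻¹ᵁ V0 ≤ W₁₃)
    (hc : ∀ x ∈ π ⁻¹ᵁ V0, ∃ i, x ∈ c.U i) (hc' : ∀ x ∈ π ⁻¹ᵁ V0, ∃ a, x ∈ c'.U a)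
    (hc'' : ∀ x ∈ π ⁻¹ᵁ V0, ∃ l, x ∈ c''.U l)
    (i : ι) (a : κ) (l : μ) (V : X.Opens) (hV : V ≤ π ⁻¹ᵁ V0) (hi : V ≤ c.U i)
    (ha : V ≤ c'.U a) (hl : V ≤ c''.U l) :
    e₁₂.φ i a V (hV.trans hW₁₂) hi ha * e₂₃.φ a l V (hV.trans hW₂₃) ha hl =
      e₁₃.φ i l V (hV.trans hW₁₃) hi hl := by
  refine R.eq_of_normal (μ := ι × κ × μ) (fun p => c.U p.1 ⊓ (c'.U p.2.1 ⊓ c''.U p.2.2))
    (fun x hx => ?_)
    (fun p V hV hp =>
      e₁₂.φ p.1 p.2.1 V (hV.trans hW₁₂) (hp.trans inf_le_left)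
        (hp.trans (inf_le_right.trans inf_le_left)) *
      e₂₃.φ p.2.1 p.2.2 V (hV.trans hW₂₃) (hp.trans (inf_le_right.trans inf_le_left))
        (hp.trans (inf_le_right.trans inf_le_right)))
    (fun p V hV hp => e₁₃.φ p.1 p.2.2 V (hV.trans hW₁₃) (hp.trans inf_le_left)
      (hp.trans (inf_le_right.trans inf_le_right)))
    (fun p V V' hle hV hp => by simp) (fun p V V' hle hV hp => e₁₃.res_φ ..)
    (fun p V hV hp => e₁₃.isUnit_φ ..) ?_ ?_ (i, a, l) V hV (le_inf hi (le_inf ha hl))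
  · obtain ⟨i, hi⟩ := hc x hx
    obtain ⟨a, ha⟩ := hc' x hx
    obtain ⟨l, hl⟩ := hc'' x hx
    exact Opens.mem_iSup.mpr ⟨(i, a, l), hi, ha, hl⟩
  · rintro ⟨i, a, l⟩ ⟨j, b, m⟩ V hV hp hq
    have pi := hp.trans inf_le_left
    have pa : V ≤ c'.U a := hp.trans (inf_le_right.trans inf_le_left)
    have pl : V ≤ c''.U l := hp.trans (inf_le_right.trans inf_le_right)
    have qj := hq.trans inf_le_left
    have qb : V ≤ c'.U b := hq.trans (inf_le_right.trans inf_le_left)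
    have qm : V ≤ c''.U m := hq.trans (inf_le_right.trans inf_le_right)
    apply (c''.isUnit_g l m V pl qm).mul_right_cancel
    rw [mul_right_comm _ (e₁₃.φ j m V _ _ _), mul_assoc (e₁₂.φ i a V _ _ _),
      e₂₃.φ_g a l m V _ pa pl qm, ← e₂₃.g_φ a b m V _ pa qb qm, ← mul_assoc,
      e₁₂.φ_g i a b V _ pi pa qb, ← e₁₂.g_φ i j b V _ pi qj qb, mul_assoc _ (e₁₃.φ i l V _ _ _),
      e₁₃.φ_g i l m V _ pi pl qm, ← e₁₃.g_φ i j m V _ pi qj qm]
    ring
  · rintro ⟨i, a, l⟩ V hV hp V' hV'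
    apply (f''.isUnit_ν l V'
      (hV'.trans (σ.preimage_mono (hp.trans (inf_le_right.trans inf_le_right))))).mul_right_cancel
    rw [map_mul, mul_assoc, h₂₃ a l V _ _ _ V' hV', h₁₂ i a V _ _ _ V' hV', h₁₃ i l V _ _ _ V' hV']

/-- The frame of a cocycle given by a generator along the section. -/
def Frame.ofSec (C : Cocycle X ι) (s : Sec (C.pull σ) ⊤) (hs : s.IsGen) : Frame σ C.toL where
  ν i V hi := s.val i V le_top hi
  res_ν i V V' h hi := s.res_val i V V' h le_top hi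
  isUnit_ν i V hi := hs i V le_top hi
  ν_g i j W V hi hj h := by
    have hg := s.g_val i j V le_top (h.trans (σ.preimage_mono hi)) (h.trans (σ.preimage_mono hj))
    rw [Cocycle.pull_g σ C i j V W h hi hj] at hg
    exact hg

/-- Framed cocycles comparable on a cover of the base glue. -/
theorem exists_glue (R : RigidProj π σ) {α : Type u} (V : α → T.Opens)
    (hV : ∀ t : T, ∃ a, t ∈ V a) {κ : α → Type u} (c : ∀ a, LCocycle X (κ a))
    (f : ∀ a, Frame σ (c a)) (hU : ∀ a i, (c a).U i ≤ π ⁻¹ᵁ V a)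
    (hcov : ∀ a, ∀ x ∈ π ⁻¹ᵁ V a, ∃ i, x ∈ (c a).U i)
    (hcomp : ∀ a b, Nonempty (LComp (c a) (c b) (π ⁻¹ᵁ (V a ⊓ V b)))) :
    ∃ C : Cocycle X (Σ a, κ a), (∀ a, Nonempty (LComp C.toL (c a) (π ⁻¹ᵁ V a))) ∧
      Pic.map σ (Pic.mk C) = 1 := by
  have hl : ∀ a b, π ⁻¹ᵁ (V a ⊓ V b) ≤ π ⁻¹ᵁ V a := fun a b => π.preimage_mono inf_le_left
  have hr : ∀ a b, π ⁻¹ᵁ (V a ⊓ V b) ≤ π ⁻¹ᵁ V b := fun a b => π.preimage_mono inf_le_right
  choose e he using fun a b => exists_normal R (hcomp a b).some (f a) (f b)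
    (fun x hx => hcov a x (hl a b hx)) (fun x hx => hcov b x (hr a b hx))
  have tri : ∀ a b d i j l (W : X.Opens) (hi : W ≤ (c a).U i) (hj : W ≤ (c b).U j)
      (hk : W ≤ (c d).U l),
      (e a b).φ i j W (le_inf (hi.trans (hU a i)) (hj.trans (hU b j))) hi hj *
        (e b d).φ j l W (le_inf (hj.trans (hU b j)) (hk.trans (hU d l))) hj hk =
      (e a d).φ i l W (le_inf (hi.trans (hU a i)) (hk.trans (hU d l))) hi hk :=
    fun a b d i j l W hi hj hk =>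
      (he a b).comp R (he b d) (he a d) (V0 := V a ⊓ (V b ⊓ V d))
        (π.preimage_mono (le_inf inf_le_left (inf_le_right.trans inf_le_left)))
        (π.preimage_mono inf_le_right)
        (π.preimage_mono (le_inf inf_le_left (inf_le_right.trans inf_le_right)))
        (fun x hx => hcov a x (π.preimage_mono inf_le_left hx))
        (fun x hx => hcov b x (π.preimage_mono (inf_le_right.trans inf_le_left) hx))
        (fun x hx => hcov d x (π.preimage_mono (inf_le_right.trans inf_le_right) hx))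
        i j l W (le_inf (hi.trans (hU a i)) (le_inf (hj.trans (hU b j)) (hk.trans (hU d l))))
        hi hj hk
  have self : ∀ a i (W : X.Opens) (hi : W ≤ (c a).U i),
      (e a a).φ i i W (le_inf (hi.trans (hU a i)) (hi.trans (hU a i))) hi hi = 1 :=
    fun a i W hi => by
      apply ((e a a).isUnit_φ i i W (le_inf (hi.trans (hU a i)) (hi.trans (hU a i))) hi hi).mul_left_cancel
      rw [mul_one]
      exact tri a a a i i i W hi hi hi
  let C : Cocycle X (Σ a, κ a) :=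
    { U := fun p => (c p.1).U p.2
      cover := fun x => by
        obtain ⟨a, ha⟩ := hV (π x)
        obtain ⟨i, hi⟩ := hcov a x ha
        exact ⟨⟨a, i⟩, hi⟩
      g := fun p q W hp hq => (e p.1 q.1).φ p.2 q.2 W
        (le_inf (hp.trans (hU p.1 p.2)) (hq.trans (hU q.1 q.2))) hp hq
      res_g := fun p q W W' h hp hq => (e p.1 q.1).res_φ ..
      g_self := fun p W hp => self p.1 p.2 W hp
      g_mul := fun p q r W hp hq hr => tri p.1 q.1 r.1 p.2 q.2 r.2 W hp hq hr }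
  refine ⟨C, fun d => ⟨{
    φ := fun p i W hW hp hi => (e p.1 d).φ p.2 i W (le_inf (hp.trans (hU p.1 p.2)) hW) hp hi
    res_φ := fun p i W W' h hW hp hi => (e p.1 d).res_φ ..
    isUnit_φ := fun p i W hW hp hi => (e p.1 d).isUnit_φ ..
    g_φ := fun p q i W hW hp hq hi => tri p.1 q.1 d p.2 q.2 i W hp hq hi
    φ_g := fun p i j W hW hp hi hj => (e p.1 d).φ_g .. }⟩, ?_⟩
  rw [Pic.map_mk, Pic.mk_eq_one_iff]
  refine ⟨⟨fun p W _ hp => (f p.1).ν p.2 W hp, fun p W W' h _ hp => (f p.1).res_ν ..,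
    fun p q W _ hp hq => ?_⟩, fun p W _ hp => (f p.1).isUnit_ν ..⟩
  rw [Cocycle.pull_g σ C p q W (C.U p ⊓ C.U q) (le_inf hp hq) inf_le_left inf_le_right]
  exact he p.1 q.1 p.2 q.2 (C.U p ⊓ C.U q)
    (le_inf (inf_le_left.trans (hU p.1 p.2)) (inf_le_right.trans (hU q.1 q.2)))
    inf_le_left inf_le_right W (le_inf hp hq)

/-- Framed cocycles comparable on a cover of the base are equivalent. -/
theorem rel_of_local (R : RigidProj π σ) {C : Cocycle X ι} {C' : Cocycle X κ}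
    (f : Frame σ C.toL) (f' : Frame σ C'.toL) {α : Type u} (V : α → T.Opens)
    (hV : ∀ t : T, ∃ a, t ∈ V a) (h : ∀ a, Nonempty (LComp C.toL C'.toL (π ⁻¹ᵁ V a))) :
    Cocycle.Rel C C' := by
  choose e he using fun a => exists_normal R (h a).some f f' (fun x _ => C.cover x)
    (fun x _ => C'.cover x)
  have key : ∀ i k (W : X.Opens) (hi : W ≤ C.U i) (hk : W ≤ C'.U k),
      ∃! s : Γ(X, W), ∀ a W' (h : W' ≤ W) (ha : W' ≤ π ⁻¹ᵁ V a),
        res h s = (e a).φ i k W' ha (h.trans hi) (h.trans hk) := fun i k W hi hk =>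
    sections_glue (fun a => π ⁻¹ᵁ V a) (fun x _ => Opens.mem_iSup.mpr (hV (π x)))
      (fun a W' h ha => (e a).φ i k W' ha (h.trans hi) (h.trans hk))
      (fun a W' W'' h' h ha => (e a).res_φ ..)
      (fun a b W' h ha hb => (he a).eq R (he b) (V0 := V a ⊓ V b) (π.preimage_mono inf_le_left)
        (π.preimage_mono inf_le_right) (fun x _ => C.cover x) (fun x _ => C'.cover x) i k W'
        (le_inf ha hb) _ _)
  choose s hs _ using fun i k W hi hk => (key i k W hi hk)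
  have hcov : ∀ W : X.Opens, W ≤ iSup fun a => π ⁻¹ᵁ V a :=
    fun W x _ => Opens.mem_iSup.mpr (hV (π x))
  refine ⟨{
    φ := s
    res_φ := fun i k W W' h hi hk => sections_ext _ (hcov W') fun a W'' h' ha => by
      rw [res_res, hs i k W hi hk a W'' (h'.trans h) ha,
        hs i k W' (h.trans hi) (h.trans hk) a W'' h' ha]
    isUnit_φ := fun i k W hi hk => isUnit_of_cover _ (hcov W) fun a W' h ha => by
      rw [hs i k W hi hk a W' h ha]; exact (e a).isUnit_φ ..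
    g_φ := fun i j k W hi hj hk => sections_ext _ (hcov W) fun a W' h ha => by
      rw [map_mul, hs j k W hj hk a W' h ha, hs i k W hi hk a W' h ha, Cocycle.res_g]
      exact (e a).g_φ ..
    φ_g := fun i k l W hi hk hl => sections_ext _ (hcov W) fun a W' h ha => by
      rw [map_mul, hs i k W hi hk a W' h ha, hs i l W hi hl a W' h ha, Cocycle.res_g]
      exact (e a).φ_g .. }⟩

end LCocycle

end Fermat.Agent.Jac

end
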