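import Fermat.Agent.Jac.LineSections

/-!
Cocycles on opens, framed along a section of a projection, and their gluing.
-/

set_option autoImplicit false
set_option linter.unusedVariables false

noncomputable section

open CategoryTheory AlgebraicGeometry TopologicalSpace Opposite

namespace Fermat.Agent.Jac

universe u w

variable {X X' Y T : Scheme.{u}}

section OpenImmersion

variable (b : X' ⟶ X) [IsOpenImmersion b]

theorem appLEHom_open_bijective {V : X.Opens} (h : V ≤ b.opensRange) :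
    Function.Bijective (appLEHom b (le_refl (b ⁻¹ᵁ V))) := by
  have := b.isIso_app V h
  have e : b.appLE V (b ⁻¹ᵁ V) le_rfl = b.app V := (b.app_eq_appLE).symm
  change Function.Bijective (b.appLE V (b ⁻¹ᵁ V) le_rfl)
  rw [e]
  exact ConcreteCategory.bijective_of_isIso _

/-- Functions on an open inside the range of an open immersion. -/
def openEquiv {V : X.Opens} (h : V ≤ b.opensRange) : Γ(X, V) ≃+* Γ(X', b ⁻¹ᵁ V) :=
  RingEquiv.ofBijective (appLEHom b (le_refl (b ⁻¹ᵁ V))) (appLEHom_open_bijective b h)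

theorem openEquiv_apply {V : X.Opens} (h : V ≤ b.opensRange) (a : Γ(X, V)) :
    openEquiv b h a = appLEHom b (le_refl (b ⁻¹ᵁ V)) a := rfl

theorem openEquiv_res {V W : X.Opens} (hW : W ≤ V) (h : V ≤ b.opensRange) (a : Γ(X', b ⁻¹ᵁ V)) :
    res hW ((openEquiv b h).symm a) =
      (openEquiv b (hW.trans h)).symm (res (b.preimage_mono hW) a) := by
  apply (openEquiv b (hW.trans h)).injective
  rw [RingEquiv.apply_symm_apply, openEquiv_apply, appLEHom_res]
  conv_rhs => rw [← (openEquiv b h).apply_symm_apply a, openEquiv_apply, res_appLEHom]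

end OpenImmersion

/-- A cocycle on the union of a family of opens. -/
structure LCocycle (X : Scheme.{u}) (ι : Type u) where
  U : ι → X.Opens
  g : ∀ i j (V : X.Opens), V ≤ U i → V ≤ U j → Γ(X, V)
  res_g : ∀ i j (V W : X.Opens) (h : W ≤ V) (hi : V ≤ U i) (hj : V ≤ U j),
    res h (g i j V hi hj) = g i j W (h.trans hi) (h.trans hj)
  g_self : ∀ i (V : X.Opens) (hi : V ≤ U i), g i i V hi hi = 1
  g_mul : ∀ i j l (V : X.Opens) (hi : V ≤ U i) (hj : V ≤ U j) (hl : V ≤ U l),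
    g i j V hi hj * g j l V hj hl = g i l V hi hl

variable {ι κ μ : Type u}

/-- A cocycle as a local cocycle. -/
def Cocycle.toL (c : Cocycle X ι) : LCocycle X ι where
  U := c.U
  g := c.g
  res_g := c.res_g
  g_self := c.g_self
  g_mul := c.g_mul

namespace LCocycle

attribute [simp] LCocycle.res_g

theorem isUnit_g (c : LCocycle X ι) (i j : ι) (V : X.Opens) (hi : V ≤ c.U i) (hj : V ≤ c.U j) :
    IsUnit (c.g i j V hi hj) :=
  IsUnit.of_mul_eq_one (c.g j i V hj hi) (by rw [c.g_mul, c.g_self])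

/-- Pullback of a local cocycle covering the image. -/
def pullL (b : X' ⟶ X) (c : LCocycle X ι) (hb : ∀ x : X', ∃ i, x ∈ b ⁻¹ᵁ c.U i) :
    Cocycle X' ι where
  U i := b ⁻¹ᵁ c.U i
  cover := hb
  g i j V hi hj := appLEHom b (U := c.U i ⊓ c.U j) (show V ≤ b ⁻¹ᵁ (c.U i ⊓ c.U j) from le_inf hi hj)
    (c.g i j _ inf_le_left inf_le_right)
  res_g i j V W h hi hj := by simp
  g_self i V hi := by rw [c.g_self, map_one]
  g_mul i j l V hi hj hl := by
    have hV : V ≤ b ⁻¹ᵁ (c.U i ⊓ (c.U j ⊓ c.U l)) := le_inf hi (le_inf hj hl)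
    have h := congrArg (appLEHom b hV)
      (c.g_mul i j l _ inf_le_left (inf_le_right.trans inf_le_left) (inf_le_right.trans inf_le_right))
    rw [map_mul,
      ← c.res_g i j (c.U i ⊓ c.U j) _ (le_inf inf_le_left (inf_le_right.trans inf_le_left))
        inf_le_left inf_le_right,
      ← c.res_g j l (c.U j ⊓ c.U l) _ inf_le_right inf_le_left inf_le_right,
      ← c.res_g i l (c.U i ⊓ c.U l) _ (le_inf inf_le_left (inf_le_right.trans inf_le_right))
        inf_le_left inf_le_right, appLEHom_res, appLEHom_res, appLEHom_res] at h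
    exact h

theorem pullL_g (b : X' ⟶ X) (c : LCocycle X ι) (hb : ∀ x : X', ∃ i, x ∈ b ⁻¹ᵁ c.U i)
    (i j : ι) (V : X'.Opens) (W : X.Opens) (hW : V ≤ b ⁻¹ᵁ W) (hi : W ≤ c.U i) (hj : W ≤ c.U j) :
    (c.pullL b hb).g i j V (hW.trans (b.preimage_mono hi)) (hW.trans (b.preimage_mono hj)) =
      appLEHom b hW (c.g i j W hi hj) := by
  rw [← c.res_g i j (c.U i ⊓ c.U j) W (le_inf hi hj) inf_le_left inf_le_right, appLEHom_res]
  rfl

theorem pullL_toL_rel (b : X' ⟶ X) (c : Cocycle X ι) (hb : ∀ x : X', ∃ i, x ∈ b ⁻¹ᵁ c.U i) :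
    Cocycle.Rel (c.toL.pullL b hb) (c.pull b) :=
  Cocycle.rel_of_eq (fun _ => rfl) fun _ _ _ _ _ => rfl

/-- Comparison of two local cocycles over an open. -/
structure LComp (c : LCocycle X ι) (c' : LCocycle X κ) (W : X.Opens) where
  φ : ∀ i a (V : X.Opens), V ≤ W → V ≤ c.U i → V ≤ c'.U a → Γ(X, V)
  res_φ : ∀ i a (V V' : X.Opens) (h : V' ≤ V) (hW : V ≤ W) (hi : V ≤ c.U i) (ha : V ≤ c'.U a),
    res h (φ i a V hW hi ha) = φ i a V' (h.trans hW) (h.trans hi) (h.trans ha)
  isUnit_φ : ∀ i a (V : X.Opens) (hW : V ≤ W) (hi : V ≤ c.U i) (ha : V ≤ c'.U a),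
    IsUnit (φ i a V hW hi ha)
  g_φ : ∀ i j a (V : X.Opens) (hW : V ≤ W) (hi : V ≤ c.U i) (hj : V ≤ c.U j) (ha : V ≤ c'.U a),
    c.g i j V hi hj * φ j a V hW hj ha = φ i a V hW hi ha
  φ_g : ∀ i a b (V : X.Opens) (hW : V ≤ W) (hi : V ≤ c.U i) (ha : V ≤ c'.U a) (hb : V ≤ c'.U b),
    φ i a V hW hi ha * c'.g a b V ha hb = φ i b V hW hi hb

attribute [simp] LComp.res_φ

variable {c : LCocycle X ι} {c' : LCocycle X κ} {W : X.Opens}

/-- A comparison over an open gives a comparison of pullbacks. -/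
theorem LComp.rel (e : LComp c c' W) (b : X' ⟶ X) (hb : ∀ x : X', x ∈ b ⁻¹ᵁ W)
    (hc : ∀ x : X', ∃ i, x ∈ b ⁻¹ᵁ c.U i) (hc' : ∀ x : X', ∃ a, x ∈ b ⁻¹ᵁ c'.U a) :
    Cocycle.Rel (c.pullL b hc) (c'.pullL b hc') := by
  refine ⟨{
    φ := fun i a V hi ha => appLEHom b (U := W ⊓ (c.U i ⊓ c'.U a))
      (show V ≤ b ⁻¹ᵁ (W ⊓ (c.U i ⊓ c'.U a)) from fun x hx => ⟨hb x, hi hx, ha hx⟩)
      (e.φ i a _ inf_le_left (inf_le_right.trans inf_le_left) (inf_le_right.trans inf_le_right))
    res_φ := fun i a V V' h hi ha => by simp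
    isUnit_φ := fun i a V hi ha => (e.isUnit_φ ..).map _
    g_φ := ?_
    φ_g := ?_ }⟩
  · intro i j a V hi hj ha
    let P : X.Opens := W ⊓ (c.U i ⊓ (c.U j ⊓ c'.U a))
    have hP : V ≤ b ⁻¹ᵁ P := fun x hx => ⟨hb x, hi hx, hj hx, ha hx⟩
    have pi : P ≤ c.U i := inf_le_right.trans inf_le_left
    have pj : P ≤ c.U j := inf_le_right.trans (inf_le_right.trans inf_le_left)
    have pa : P ≤ c'.U a := inf_le_right.trans (inf_le_right.trans inf_le_right)
    have h := congrArg (appLEHom b hP) (e.g_φ i j a P inf_le_left pi pj pa)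
    rw [map_mul, ← pullL_g b c hc i j V P hP pi pj,
      ← e.res_φ j a (W ⊓ (c.U j ⊓ c'.U a)) P (le_inf inf_le_left (le_inf pj pa)) inf_le_left
        (inf_le_right.trans inf_le_left) (inf_le_right.trans inf_le_right),
      ← e.res_φ i a (W ⊓ (c.U i ⊓ c'.U a)) P (le_inf inf_le_left (le_inf pi pa)) inf_le_left
        (inf_le_right.trans inf_le_left) (inf_le_right.trans inf_le_right),
      appLEHom_res, appLEHom_res] at h
    exact h
  · intro i a a' V hi ha ha'
    let P : X.Opens := W ⊓ (c.U i ⊓ (c'.U a ⊓ c'.U a'))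
    have hP : V ≤ b ⁻¹ᵁ P := fun x hx => ⟨hb x, hi hx, ha hx, ha' hx⟩
    have pi : P ≤ c.U i := inf_le_right.trans inf_le_left
    have pa : P ≤ c'.U a := inf_le_right.trans (inf_le_right.trans inf_le_left)
    have pa' : P ≤ c'.U a' := inf_le_right.trans (inf_le_right.trans inf_le_right)
    have h := congrArg (appLEHom b hP) (e.φ_g i a a' P inf_le_left pi pa pa')
    rw [map_mul, ← pullL_g b c' hc' a a' V P hP pa pa',
      ← e.res_φ i a (W ⊓ (c.U i ⊓ c'.U a)) P (le_inf inf_le_left (le_inf pi pa)) inf_le_left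
        (inf_le_right.trans inf_le_left) (inf_le_right.trans inf_le_right),
      ← e.res_φ i a' (W ⊓ (c.U i ⊓ c'.U a')) P (le_inf inf_le_left (le_inf pi pa')) inf_le_left
        (inf_le_right.trans inf_le_left) (inf_le_right.trans inf_le_right),
      appLEHom_res, appLEHom_res] at h
    exact h

variable (b : X' ⟶ X) [IsOpenImmersion b]

/-- A comparison of pullbacks along an open immersion gives a comparison over its range. -/
def LComp.ofRel {hc : ∀ x : X', ∃ i, x ∈ b ⁻¹ᵁ c.U i} {hc' : ∀ x : X', ∃ a, x ∈ b ⁻¹ᵁ c'.U a}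
    (hW : W ≤ b.opensRange) (e : Cocycle.Comparison (c.pullL b hc) (c'.pullL b hc')) :
    LComp c c' W where
  φ i a V hV hi ha := (openEquiv b (hV.trans hW)).symm
    (e.φ i a (b ⁻¹ᵁ V) (b.preimage_mono hi) (b.preimage_mono ha))
  res_φ i a V V' h hV hi ha := by rw [openEquiv_res, e.res_φ]
  isUnit_φ i a V hV hi ha := (e.isUnit_φ ..).map _
  g_φ i j a V hV hi hj ha := by
    apply (openEquiv b (hV.trans hW)).injective
    rw [map_mul, RingEquiv.apply_symm_apply, RingEquiv.apply_symm_apply, openEquiv_apply,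
      ← pullL_g b c hc i j _ V le_rfl hi hj]
    exact e.g_φ ..
  φ_g i a a' V hV hi ha ha' := by
    apply (openEquiv b (hV.trans hW)).injective
    rw [map_mul, RingEquiv.apply_symm_apply, RingEquiv.apply_symm_apply, openEquiv_apply,
      ← pullL_g b c' hc' a a' _ V le_rfl ha ha']
    exact e.φ_g ..

theorem LComp.nonempty_of_rel {hc : ∀ x : X', ∃ i, x ∈ b ⁻¹ᵁ c.U i}
    {hc' : ∀ x : X', ∃ a, x ∈ b ⁻¹ᵁ c'.U a} (hW : W ≤ b.opensRange)
    (h : Cocycle.Rel (c.pullL b hc) (c'.pullL b hc')) : Nonempty (LComp c c' W) :=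
  h.map (LComp.ofRel b hW)

/-- Pushforward of a cocycle along an open immersion. -/
def push (c : Cocycle X' ι) : LCocycle X ι where
  U i := b ''ᵁ c.U i
  g i j V hi hj := (openEquiv b (hi.trans (b.image_le_opensRange _))).symm
    (c.g i j (b ⁻¹ᵁ V) ((b.preimage_mono hi).trans (b.preimage_image_eq _).le)
      ((b.preimage_mono hj).trans (b.preimage_image_eq _).le))
  res_g i j V W h hi hj := by rw [openEquiv_res, Cocycle.res_g]
  g_self i V hi := by rw [Cocycle.g_self, map_one]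
  g_mul i j l V hi hj hl := by rw [← map_mul, Cocycle.g_mul]

theorem push_pullL_rel (c : Cocycle X' ι) {Y : Scheme.{u}} (p : Y ⟶ X') (q : Y ⟶ X)
    (e : p ≫ b = q) (hq : ∀ y : Y, ∃ i, y ∈ q ⁻¹ᵁ (push b c).U i) :
    Cocycle.Rel ((push b c).pullL q hq) (c.pull p) := by
  subst e
  have hU : ∀ i, (c.pull p).U i = ((push b c).pullL (p ≫ b) hq).U i := fun i => by
    change p ⁻¹ᵁ c.U i = (p ≫ b) ⁻¹ᵁ (b ''ᵁ c.U i)
    rw [Scheme.Hom.comp_preimage, b.preimage_image_eq]
  refine Cocycle.rel_of_eq hU fun i j V hi hj => ?_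
  set P : X.Opens := (push b c).U i ⊓ (push b c).U j
  have hV : V ≤ (p ≫ b) ⁻¹ᵁ P := le_inf (hi.trans (hU i).le) (hj.trans (hU j).le)
  rw [pullL_g (p ≫ b) (push b c) hq i j V P hV inf_le_left inf_le_right,
    Cocycle.pull_g p c i j V (b ⁻¹ᵁ P) (hV.trans (Scheme.Hom.comp_preimage p b P).le)
      ((b.preimage_mono inf_le_left).trans (b.preimage_image_eq _).le)
      ((b.preimage_mono inf_le_right).trans (b.preimage_image_eq _).le),
    ← appLEHom_appLEHom p b (V := b ⁻¹ᵁ P) (hV.trans (Scheme.Hom.comp_preimage p b P).le) le_rfl]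
  exact congrArg _
    ((openEquiv b ((inf_le_left : P ≤ _).trans (b.image_le_opensRange _))).apply_symm_apply _).symm

end LCocycle

end Fermat.Agent.Jac

end
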