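import Fermat.Agent.Jac.Rigid.Glue
import Fermat.Agent.Jac.Rigid.Basic
import Fermat.Agent.Jac.Geom.Marked

/-!
Functions on the curve over an open of the base which are `1` on the marked section are `1`.
-/

set_option autoImplicit false
set_option linter.unusedVariables false

noncomputable section

open CategoryTheory CategoryTheory.Limits AlgebraicGeometry TopologicalSpace Opposite NeronModelInfra
open AlgebraicGeometry.RelPicard

namespace Fermat.Agent.Jac

universe u

section General

variable {R : Type u} [CommRing R] {C : Scheme.{u}} (c : C ⟶ Spec (CommRingCat.of R))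
  {T T' : Scheme.{u}} {t : T ⟶ Spec (CommRingCat.of R)} {t' : T' ⟶ Spec (CommRingCat.of R)}

theorem baseChangeSnd_snd (g : SchemeHomOver t' t) :
    baseChangeSnd c g ≫ pullback.snd c t = pullback.snd c t' ≫ g.1 := by
  unfold baseChangeSnd
  exact pullback.lift_snd _ _ _

theorem baseChangeSnd_fst (g : SchemeHomOver t' t) :
    baseChangeSnd c g ≫ pullback.fst c t = pullback.fst c t' := by
  unfold baseChangeSnd
  exact (pullback.lift_fst _ _ _).trans (Category.comp_id _)

theorem isPullback_baseChangeSnd (g : SchemeHomOver t' t) :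
    IsPullback (baseChangeSnd c g) (pullback.snd c t') (pullback.snd c t) g.1 := by
  refine IsPullback.of_right ?_ (baseChangeSnd_snd c g) (IsPullback.of_hasPullback c t)
  rw [baseChangeSnd_fst, g.2]
  exact IsPullback.of_hasPullback c t'

theorem isOpenImmersion_baseChangeSnd (g : SchemeHomOver t' t) (hg : IsOpenImmersion g.1) :
    IsOpenImmersion (baseChangeSnd c g) :=
  MorphismProperty.of_isPullback (isPullback_baseChangeSnd c g).flip hg

theorem range_baseChangeSnd (g : SchemeHomOver t' t) :
    Set.range (baseChangeSnd c g) = pullback.snd c t ⁻¹' Set.range g.1 := by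
  have h := Scheme.Pullback.range_map c t' c t (𝟙 C) g.1 (𝟙 _)
    ((Category.comp_id c).trans (Category.id_comp c).symm) ((Category.comp_id t').trans g.2.symm)
  unfold baseChangeSnd
  rw [h]
  simp

theorem opensRange_baseChangeSnd (g : SchemeHomOver t' t) [IsOpenImmersion g.1]
    [IsOpenImmersion (baseChangeSnd c g)] :
    (baseChangeSnd c g).opensRange = pullback.snd c t ⁻¹ᵁ g.1.opensRange :=
  Opens.ext (range_baseChangeSnd c g)

theorem rigSection_comp_snd (t : T ⟶ Spec (CommRingCat.of R))
    (ε : SchemeHomOver (𝟙 (Spec (CommRingCat.of R))) c) :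
    rigSection c t ε ≫ pullback.snd c t = 𝟙 T := by
  unfold rigSection
  exact pullback.lift_snd _ _ _

end General

variable {k : Type u} [Field k] {C : Scheme.{u}} {c : C ⟶ Spec (CommRingCat.of k)}
  {ε : SchemeHomOver (𝟙 (Spec (CommRingCat.of k))) c}

/-- Affine case: a global function on the curve over `A` is determined along the section. -/
theorem CurveModel.eq_one_of_section (M : CurveModel c ε) (A : Type u) [CommRing A] [Algebra k A]
    (a : Γ(curveOver c A, ⊤)) (h : (⊤ : (Spec (CommRingCat.of A)).Opens) ≤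
      rigSection c (specAlg k A) ε ⁻¹ᵁ ⊤)
    (ha : appLEHom (rigSection c (specAlg k A) ε) h a = 1) : a = 1 := by
  obtain ⟨r, rfl⟩ := M.eq_constHom_of_global a
  have h1 : appLEHom (rigSection c (specAlg k A) ε) h (constHom c A ⊤ r) =
      (Scheme.ΓSpecIso (CommRingCat.of A)).inv r := by
    change appLEHom _ _ (appLEHom (pullback.snd c (specAlg k A)) _
      ((Scheme.ΓSpecIso (CommRingCat.of A)).inv r)) = _
    rw [appLEHom_appLEHom, appLEHom_congr (rigSection_comp_snd c (specAlg k A) ε), appLEHom_id,
      res_self]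
  have h2 : r = 1 := by
    have h3 := congrArg (Scheme.ΓSpecIso (CommRingCat.of A)).hom (h1.symm.trans ha)
    rwa [Iso.inv_hom_id_apply, map_one] at h3
  rw [h2, map_one]

/-- The curve over `T` with its marked section is rigid. -/
theorem CurveModel.rigidProj (M : CurveModel c ε) {T : Scheme.{u}}
    (t : T ⟶ Spec (CommRingCat.of k)) : RigidProj (pullback.snd c t) (rigSection c t ε) := by
  refine ⟨rigSection_comp_snd c t ε, fun V a hV ha => ?_⟩
  refine sections_ext (fun W : {W : T.Opens // IsAffineOpen W ∧ W ≤ V} =>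
    pullback.snd c t ⁻¹ᵁ W.1) (fun x hx => ?_) fun W Q hQV hQW => ?_
  · obtain ⟨_, ⟨W, hW, rfl⟩, hxW, hWV⟩ :=
      T.isBasis_affineOpens.exists_subset_of_mem_open hx V.isOpen
    exact Opens.mem_iSup.mpr ⟨⟨W, hW, hWV⟩, hxW⟩
  obtain ⟨W, hW, hWV⟩ := W
  suffices H : res (show pullback.snd c t ⁻¹ᵁ W ≤ pullback.snd c t ⁻¹ᵁ V from
      (pullback.snd c t).preimage_mono hWV) a = 1 by
    have := congrArg (res hQW) H
    simpa using this
  let φ := Spec.preimage (hW.fromSpec ≫ t)
  let : Algebra k Γ(T, W) := φ.hom.toAlgebra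
  have hj : hW.fromSpec ≫ t = specAlg k Γ(T, W) := (Spec.map_preimage _).symm
  let j : SchemeHomOver (specAlg k Γ(T, W)) t := ⟨hW.fromSpec, hj⟩
  have hji : IsOpenImmersion j.1 := inferInstanceAs (IsOpenImmersion hW.fromSpec)
  have := isOpenImmersion_baseChangeSnd c j hji
  have hr : (baseChangeSnd c j).opensRange = pullback.snd c t ⁻¹ᵁ W := by
    rw [opensRange_baseChangeSnd c j]
    exact congrArg _ hW.opensRange_fromSpec
  have htop : baseChangeSnd c j ⁻¹ᵁ (pullback.snd c t ⁻¹ᵁ W) = ⊤ := by
    rw [← hr, Scheme.Hom.preimage_opensRange]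
  apply (openEquiv (baseChangeSnd c j) hr.ge).injective
  rw [map_one, openEquiv_apply, appLEHom_res]
  have hle : (⊤ : (curveOver c Γ(T, W)).Opens) ≤ baseChangeSnd c j ⁻¹ᵁ (pullback.snd c t ⁻¹ᵁ V) := by
    rw [← htop]
    exact (baseChangeSnd c j).preimage_mono ((pullback.snd c t).preimage_mono hWV)
  have hone : appLEHom (baseChangeSnd c j) hle a = 1 := by
    refine M.eq_one_of_section Γ(T, W) _ (le_preimage_top _ ⊤) ?_
    rw [appLEHom_appLEHom, appLEHom_congr (rigSection_baseChangeSnd c ε j)]
    refine (appLEHom_appLEHom j.1 (rigSection c t ε) (V := V) ?_ hV a).symm.trans ?_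
    · intro x _
      have hx : j.1 x ∈ hW.fromSpec.opensRange := ⟨x, rfl⟩
      rw [hW.opensRange_fromSpec] at hx
      exact hWV hx
    · rw [ha, map_one]
  have := congrArg (res (le_top : baseChangeSnd c j ⁻¹ᵁ (pullback.snd c t ⁻¹ᵁ W) ≤ ⊤)) hone
  rw [res_appLEHom, map_one] at this
  exact this

end Fermat.Agent.Jac

end
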